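/-
Programme TW (S56), sub-programme C (Greenberg–Wiles), brick C0 (helper22), file 3:
**middle exactness from reciprocity + a dimension count** (pure linear algebra, Mathlib only).

Setting as in `LinAlg`: maps `r q : X → P q`, `r' q : X' → P' q`, right-nondegenerate pairings
`T q : P q × P' q → k`, all `P q` finite-dimensional.  If

* (RECIP) `∑_q T q (r q x) (r' q y) = 0` for all `x`, `y`, and
* (COUNT) `∑_q dim P q ≤ dim range (r) + dim range (r')`,

then the image of `X → ∏ P q` is EXACTLY the annihilator of the image of `X' → ∏ P' q`.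
-/
import Mathlib

set_option autoImplicit false
set_option linter.unusedSectionVars false
set_option linter.style.haveILetI false

namespace Fermat.Agent.TW.GWAsm22.LinAlgLite

open Module

variable {k : Type*} [Field k]

section General

variable {V W : Type*} [AddCommGroup V] [Module k V] [AddCommGroup W] [Module k W]

/-- The left annihilator of `R' ≤ W` under a pairing `B : V × W → k`. -/
def annL (B : V →ₗ[k] W →ₗ[k] k) (R' : Submodule k W) : Submodule k V where
  carrier := {v | ∀ w ∈ R', B v w = 0}
  add_mem' {a b} ha hb w hw := by rw [map_add, LinearMap.add_apply, ha w hw, hb w hw, add_zero]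
  zero_mem' w _ := by rw [map_zero, LinearMap.zero_apply]
  smul_mem' c a ha w hw := by rw [map_smul, LinearMap.smul_apply, ha w hw, smul_zero]

theorem mem_annL (B : V →ₗ[k] W →ₗ[k] k) (R' : Submodule k W) (v : V) :
    v ∈ annL B R' ↔ ∀ w ∈ R', B v w = 0 := Iff.rfl

/-- For a right-nondegenerate pairing on a finite-dimensional `V`:
`dim R'^⊥ + dim R' = dim V`. -/
theorem finrank_annL_add [FiniteDimensional k V] (B : V →ₗ[k] W →ₗ[k] k)
    (hright : ∀ w, (∀ v, B v w = 0) → w = 0) (R' : Submodule k W) :
    finrank k (annL B R') + finrank k R' = finrank k V := by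
  -- the restricted pairing `V × R' → k`
  let φ : V →ₗ[k] ↥R' →ₗ[k] k := B.compl₂ R'.subtype
  have hφ : ∀ v (w : ↥R'), φ v w = B v (w : W) := fun v w => rfl
  have hinj : Function.Injective φ.flip := by
    rw [injective_iff_map_eq_zero]
    intro w hw
    apply Subtype.ext
    apply hright
    intro v
    have := LinearMap.congr_fun hw v
    rwa [LinearMap.flip_apply, hφ] at this
  haveI : FiniteDimensional k ↥R' := FiniteDimensional.of_injective φ.flip hinj
  have hsurj : Function.Surjective φ := LinearMap.flip_injective_iff₁.1 hinj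
  have hker : LinearMap.ker φ = annL B R' := by
    ext v
    rw [LinearMap.mem_ker, mem_annL]
    constructor
    · intro h w hw
      have := LinearMap.congr_fun h ⟨w, hw⟩
      rwa [hφ] at this
    · intro h
      apply LinearMap.ext
      intro w
      rw [hφ]
      exact h w w.2
  have h1 := LinearMap.finrank_range_add_finrank_ker φ
  rw [LinearMap.range_eq_top.2 hsurj, finrank_top, Subspace.dual_finrank_eq, hker] at h1
  omega

/-- If `R ≤ R'^⊥` and `dim V ≤ dim R + dim R'`, then `R = R'^⊥`. -/
theorem eq_annL_of_count [FiniteDimensional k V] (B : V →ₗ[k] W →ₗ[k] k)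
    (hright : ∀ w, (∀ v, B v w = 0) → w = 0) (R : Submodule k V) (R' : Submodule k W)
    (hle : R ≤ annL B R') (hcount : finrank k V ≤ finrank k R + finrank k R') :
    R = annL B R' := by
  apply Submodule.eq_of_le_of_finrank_le hle
  have := finrank_annL_add B hright R'
  omega

end General

section Family

variable {ι : Type*} [Fintype ι] [DecidableEq ι]
  {X X' : Type*} [AddCommGroup X] [Module k X] [AddCommGroup X'] [Module k X']
  {P P' : ι → Type*} [∀ q, AddCommGroup (P q)] [∀ q, Module k (P q)]
  [∀ q, AddCommGroup (P' q)] [∀ q, Module k (P' q)]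
  (r : ∀ q, X →ₗ[k] P q) (r' : ∀ q, X' →ₗ[k] P' q)
  (T : ∀ q, P q →ₗ[k] P' q →ₗ[k] k)

/-- The sum of the local pairings, on the products. -/
noncomputable def sumPair : (∀ q, P q) →ₗ[k] (∀ q, P' q) →ₗ[k] k :=
  ∑ q, (T q).compl₁₂ (LinearMap.proj q) (LinearMap.proj q)

theorem sumPair_apply (b : ∀ q, P q) (c : ∀ q, P' q) :
    sumPair T b c = ∑ q, T q (b q) (c q) := by
  simp [sumPair, LinearMap.sum_apply]

theorem sumPair_right (hright : ∀ q y, (∀ x, T q x y = 0) → y = 0) (c : ∀ q, P' q)
    (h : ∀ b, sumPair T b c = 0) : c = 0 := by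
  funext q
  apply hright q
  intro x
  have h1 := h (Pi.single q x)
  rw [sumPair_apply, Finset.sum_eq_single q] at h1
  · simpa using h1
  · intro q' _ hq'
    rw [Pi.single_eq_of_ne hq']
    simp
  · intro hq
    exact absurd (Finset.mem_univ q) hq

variable [∀ q, FiniteDimensional k (P q)]

/-- **Middle exactness from reciprocity and the dimension count.** -/
theorem middle_of_recip_count
    (hright : ∀ q y, (∀ x, T q x y = 0) → y = 0)
    (hrecip : ∀ (x : X) (y : X'), ∑ q, T q (r q x) (r' q y) = 0)
    (hcount : (∑ q, finrank k (P q)) ≤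
      finrank k (LinearMap.range (LinearMap.pi r)) +
        finrank k (LinearMap.range (LinearMap.pi r')))
    (b : ∀ q, P q) :
    (∀ y : X', ∑ q, T q (b q) (r' q y) = 0) ↔ ∃ x : X, ∀ q, r q x = b q := by
  have hle : LinearMap.range (LinearMap.pi r) ≤
      annL (sumPair T) (LinearMap.range (LinearMap.pi r')) := by
    rintro _ ⟨x, rfl⟩ _ ⟨y, rfl⟩
    rw [sumPair_apply]
    exact hrecip x y
  have heq := eq_annL_of_count (sumPair T) (sumPair_right T hright) _ _ hle
    (by rw [Module.finrank_pi_fintype]; exact hcount)
  constructor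
  · intro h
    have hb : b ∈ LinearMap.range (LinearMap.pi r) := by
      rw [heq]
      rintro _ ⟨y, rfl⟩
      rw [sumPair_apply]
      exact h y
    obtain ⟨x, hx⟩ := hb
    exact ⟨x, fun q => congrFun hx q⟩
  · rintro ⟨x, hx⟩ y
    have : b = fun q => r q x := funext fun q => (hx q).symm
    rw [this]
    exact hrecip x y

end Family

end Fermat.Agent.TW.GWAsm22.LinAlgLite
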