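/-
Programme TW (S56), sub-programme C (Greenberg–Wiles), brick C0 (helper22), file 4:
**the minimal form of (C1) consumed by the Greenberg–Wiles count.**

`MiddleExactLite perp S M` = right-nondegenerate local pairings `T_q` with `(T q).perp = perp` +
(RECIP) `∑_q T_q (res x) (res y) = 0` for global classes `x ∈ H¹(G_S, M)`, `y ∈ H¹(G_S, M^*)` +
(COUNT) `∑_q h¹(ℚ_q, M) ≤ rk λ_M + rk λ_{M^*}` (`λ` = total localisation `locH1`).

`middleExact_of_lite`: `MiddleExactLite` + finiteness of the local `H¹(ℚ_q, M)` ⟹ `MiddleExact`.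
So (C1) may be delivered in either form.
-/
import Mathlib
import Fermat.Agent.TW.GWIface2_97
import Fermat.Agent.TW.GWAsm22.LinAlgLite

set_option autoImplicit false
set_option linter.style.haveILetI false
set_option linter.unusedSectionVars false

open ExtCitation
open Fermat.Agent.PT.PRO Fermat.Agent.PT.BR Fermat.Agent.PT.BR.LevelBridge13

namespace Fermat.Agent.TW.GWAsm22.Lite

open Fermat.Agent.TW.GWIface97 Fermat.Agent.TW.GWIface2_97 Fermat.Agent.TW.GWAsm22.LinAlgLite

local notation "Γ" => (AlgebraicClosure ℚ ≃ₐ[ℚ] AlgebraicClosure ℚ)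

variable {p : ℕ} [Fact p.Prime]

/-- **(COUNT)** for a general pair `(A, M)` (to be used with `A = dual M`; stated for general `A`
because instance search on the product of the local groups of `dual M` fails otherwise):
`∑_{q ∈ S} h¹(ℚ_q, M) ≤ rk (H¹(G_S, M) → ∏ H¹(ℚ_q, M)) + rk (H¹(G_S, A) → ∏ H¹(ℚ_q, A))`. -/
def MiddleCountAt (S : Finset Nat.Primes) (A M : Rep.{0} (ZMod p) Γ) : Prop :=
  ∑ q : ↥S, Module.finrank (ZMod p) (H1l q.1 M) ≤
    Module.finrank (ZMod p) (LinearMap.range (ShaBridge13.locH1 S M)) +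
      Module.finrank (ZMod p) (LinearMap.range (ShaBridge13.locH1 S A))

/-- (COUNT) in kernel form: `∑ h¹_q(M) + dim Ш¹(M) + dim Ш¹(A) ≤ h¹(G_S, M) + h¹(G_S, A)`. -/
def MiddleCountKerAt (S : Finset Nat.Primes) (A M : Rep.{0} (ZMod p) Γ) : Prop :=
  (∑ q : ↥S, Module.finrank (ZMod p) (H1l q.1 M)) +
      Module.finrank (ZMod p) (LinearMap.ker (ShaBridge13.locH1 S M)) +
      Module.finrank (ZMod p) (LinearMap.ker (ShaBridge13.locH1 S A)) ≤
    Module.finrank (ZMod p) (H1g S M) + Module.finrank (ZMod p) (H1g S A)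

theorem rank_nullity_locH1 (S : Finset Nat.Primes) (M : Rep.{0} (ZMod p) Γ)
    (hfin : Module.Finite (ZMod p) (H1g S M)) :
    Module.finrank (ZMod p) (LinearMap.range (ShaBridge13.locH1 S M)) +
      Module.finrank (ZMod p) (LinearMap.ker (ShaBridge13.locH1 S M)) =
        Module.finrank (ZMod p) (H1g S M) := by
  letI i5 : ∀ q : ↥S, AddCommGroup (H1l q.1 M) := fun q => inferInstance
  letI i6 : ∀ q : ↥S, Module (ZMod p) (H1l q.1 M) := fun q => inferInstance
  haveI : FiniteDimensional (ZMod p) (H1g S M) := hfin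
  exact LinearMap.finrank_range_add_finrank_ker (K := ZMod p) (V := H1g S M)
    (V₂ := ∀ q : ↥S, H1l q.1 M) (ShaBridge13.locH1 S M)

theorem rank_nullity_locH2 (S : Finset Nat.Primes) (M : Rep.{0} (ZMod p) Γ)
    (hfin : Module.Finite (ZMod p) (H2g S M)) :
    Module.finrank (ZMod p) (LinearMap.range (ShaBridge13.locH2 S M)) +
      Module.finrank (ZMod p) (LinearMap.ker (ShaBridge13.locH2 S M)) =
        Module.finrank (ZMod p) (H2g S M) := by
  letI i5 : ∀ q : ↥S, AddCommGroup (H2l q.1 M) := fun q => inferInstance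
  letI i6 : ∀ q : ↥S, Module (ZMod p) (H2l q.1 M) := fun q => inferInstance
  haveI : FiniteDimensional (ZMod p) (H2g S M) := hfin
  exact LinearMap.finrank_range_add_finrank_ker (K := ZMod p) (V := H2g S M)
    (V₂ := ∀ q : ↥S, H2l q.1 M) (ShaBridge13.locH2 S M)

theorem lite_arith {s r1 k1 r2 k2 a b : ℕ} (h : s + k1 + k2 ≤ a + b) (h1 : r1 + k1 = a)
    (h2 : r2 + k2 = b) : s ≤ r1 + r2 := by omega

theorem middleCountAt_of_ker (S : Finset Nat.Primes) (A M : Rep.{0} (ZMod p) Γ)
    (hfin : Module.Finite (ZMod p) (H1g S M)) (hfinA : Module.Finite (ZMod p) (H1g S A))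
    (h : MiddleCountKerAt S A M) : MiddleCountAt S A M :=
  lite_arith h (rank_nullity_locH1 S M hfin) (rank_nullity_locH1 S A hfinA)

/-- **(C1-lite)**: right-nondegenerate local pairings with annihilators `perp`, global reciprocity
and the dimension count. -/
def MiddleExactLite (perp : ∀ (q : Nat.Primes) (M : Rep.{0} (ZMod p) Γ),
    Submodule (ZMod p) (H1l q M) → Submodule (ZMod p) (H1l q (dual M)))
    (S : Finset Nat.Primes) (M : Rep.{0} (ZMod p) Γ) : Prop :=
  ∃ T : ∀ q : ↥S, LocalPairing q.1 M,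
    (∀ (q : ↥S) (L : Submodule (ZMod p) (H1l q.1 M)), (T q).perp L = perp q.1 M L) ∧
    (∀ (x : H1g S M) (y : H1g S (dual M)),
      ∑ q : ↥S, (T q).pair (res1 S q.1 M x) (res1 S q.1 (dual M) y) = 0) ∧
    MiddleCountAt S (dual M) M

/-- **`MiddleExactLite` ⟹ `MiddleExact`** (given finiteness of the local `H¹`). -/
theorem middleExact_of_lite
    {perp : ∀ (q : Nat.Primes) (M : Rep.{0} (ZMod p) Γ),
      Submodule (ZMod p) (H1l q M) → Submodule (ZMod p) (H1l q (dual M))}
    (S : Finset Nat.Primes) (M : Rep.{0} (ZMod p) Γ)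
    (hfin : ∀ q : ↥S, Module.Finite (ZMod p) (H1l q.1 M))
    (h : MiddleExactLite perp S M) : MiddleExact perp S M := by
  classical
  obtain ⟨T, hperp, hrecip, hcount⟩ := h
  refine ⟨T, hperp, ?_⟩
  letI i1 : ∀ q : ↥S, AddCommGroup (H1l q.1 M) := fun q => inferInstance
  letI i2 : ∀ q : ↥S, Module (ZMod p) (H1l q.1 M) := fun q => inferInstance
  letI i3 : ∀ q : ↥S, AddCommGroup (H1l q.1 (dual M)) := fun q => inferInstance
  letI i4 : ∀ q : ↥S, Module (ZMod p) (H1l q.1 (dual M)) := fun q => inferInstance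
  haveI : ∀ q : ↥S, FiniteDimensional (ZMod p) (H1l q.1 M) := hfin
  exact middle_of_recip_count (k := ZMod p) (ι := ↥S) (X := H1g S M) (X' := H1g S (dual M))
    (P := fun q : ↥S => H1l q.1 M) (P' := fun q : ↥S => H1l q.1 (dual M))
    (fun q => res1 S q.1 M) (fun q => res1 S q.1 (dual M)) (fun q => (T q).pair)
    (fun q y hy => by
      have := (T q).right y hy
      exact this)
    hrecip hcount

end Fermat.Agent.TW.GWAsm22.Lite
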