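/-
Programme TW (S56), sub-programme C (Greenberg–Wiles), brick C0 (helper22), file 1: the abstract
linear algebra of the Greenberg–Wiles formula (Mathlib only).

`X = H¹(G_S, M)`, `X' = H¹(G_S, M^*)`, `P q = H¹(ℚ_q, M)`, `P' q = H¹(ℚ_q, M^*)`, localisation maps
`r q`, `r' q`, local pairings `T q : P q × P' q → k`, local conditions `L q ≤ P q` with annihilators
`annR (T q) (L q) ≤ P' q`.  From *middle exactness* (`hmid`: `b ∈ ∏ P q` comes from `X` iff it is
orthogonal to the image of `X'`) we get

  `dim Sel_L + dim X' = dim Ш + ∑ dim L q + dim Sel'_{L^⊥}`                        (`gw_count_A`)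

and, if the pairings have trivial right kernel,

  `dim Sel_L + dim Ш' + ∑ dim P q = dim X + ∑ dim L q + dim Sel'_{L^⊥}`            (`gw_count`).
-/
import Mathlib

set_option autoImplicit false
set_option linter.style.haveILetI false
set_option linter.unusedSectionVars false

namespace Fermat.Agent.TW.GWAsm22.LinAlg

open Module

variable {k : Type*} [Field k] {ι : Type*} [Fintype ι] [DecidableEq ι]
  {X X' : Type*} [AddCommGroup X] [Module k X] [AddCommGroup X'] [Module k X']
  {P P' : ι → Type*} [∀ q, AddCommGroup (P q)] [∀ q, Module k (P q)]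
  [∀ q, AddCommGroup (P' q)] [∀ q, Module k (P' q)]

/-- The right annihilator of `L` under a pairing. -/
def annR {V V' : Type*} [AddCommGroup V] [Module k V] [AddCommGroup V'] [Module k V']
    (T : V →ₗ[k] V' →ₗ[k] k) (L : Submodule k V) : Submodule k V' where
  carrier := {y | ∀ x ∈ L, T x y = 0}
  add_mem' {a b} ha hb x hx := by rw [map_add, ha x hx, hb x hx, add_zero]
  zero_mem' x _ := by rw [map_zero]
  smul_mem' c a ha x hx := by rw [map_smul, ha x hx, smul_zero]

theorem mem_annR {V V' : Type*} [AddCommGroup V] [Module k V] [AddCommGroup V'] [Module k V']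
    (T : V →ₗ[k] V' →ₗ[k] k) (L : Submodule k V) (y : V') :
    y ∈ annR T L ↔ ∀ x ∈ L, T x y = 0 := Iff.rfl

theorem annR_top_eq_bot {V V' : Type*} [AddCommGroup V] [Module k V] [AddCommGroup V']
    [Module k V'] (T : V →ₗ[k] V' →ₗ[k] k) (hright : ∀ y, (∀ x, T x y = 0) → y = 0) :
    annR T ⊤ = ⊥ := by
  rw [eq_bot_iff]
  intro y hy
  rw [Submodule.mem_bot]
  exact hright y fun x => hy x Submodule.mem_top

variable (r : ∀ q, X →ₗ[k] P q) (r' : ∀ q, X' →ₗ[k] P' q)
  (T : ∀ q, P q →ₗ[k] P' q →ₗ[k] k) (L : ∀ q, Submodule k (P q))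

/-- The Selmer group cut out by `L`. -/
def sel : Submodule k X := ⨅ q, (L q).comap (r q)

theorem mem_sel (x : X) : x ∈ sel r L ↔ ∀ q, r q x ∈ L q := by
  simp [sel, Submodule.mem_iInf]

/-- The pairing `(∏ L q) × X' → k`. -/
noncomputable def bil : (∀ q, ↥(L q)) →ₗ[k] X' →ₗ[k] k :=
  ∑ q, (T q).compl₁₂ ((L q).subtype.comp (LinearMap.proj q)) (r' q)

theorem bil_apply (l : ∀ q, ↥(L q)) (y : X') :
    bil r' T L l y = ∑ q, T q (l q : P q) (r' q y) := by
  simp [bil, LinearMap.sum_apply]

theorem ker_flip_bil : LinearMap.ker (bil r' T L).flip = sel r' (fun q => annR (T q) (L q)) := by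
  ext y
  rw [LinearMap.mem_ker, mem_sel]
  constructor
  · intro h q x hx
    have h1 := LinearMap.congr_fun h (Pi.single q ⟨x, hx⟩)
    rw [LinearMap.flip_apply, bil_apply, LinearMap.zero_apply] at h1
    rw [Finset.sum_eq_single q] at h1
    · simpa using h1
    · intro q' _ hq'
      rw [Pi.single_eq_of_ne hq']
      simp
    · intro hq
      exact absurd (Finset.mem_univ q) hq
  · intro h
    apply LinearMap.ext
    intro l
    rw [LinearMap.flip_apply, bil_apply, LinearMap.zero_apply]
    exact Finset.sum_eq_zero fun q _ => h q _ (l q).2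

variable [FiniteDimensional k X'] [∀ q, FiniteDimensional k (P q)]

/-- `∑ dim L q - dim ker(bil) = dim X' - dim Sel'`. -/
theorem finrank_ker_bil :
    (∑ q, finrank k (L q)) + finrank k (sel r' (fun q => annR (T q) (L q))) =
      finrank k X' + finrank k (LinearMap.ker (bil r' T L)) := by
  have h1 : finrank k (LinearMap.ker (bil r' T L)) +
      finrank k (LinearMap.range (bil r' T L).flip) = finrank k (∀ q, ↥(L q)) := by
    rw [← LinearMap.dualAnnihilator_ker_eq_range_flip]
    exact Subspace.finrank_add_finrank_dualAnnihilator_eq _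
  have h2 := LinearMap.finrank_range_add_finrank_ker (bil r' T L).flip
  rw [ker_flip_bil] at h2
  rw [Module.finrank_pi_fintype] at h1
  omega

variable (hmid : ∀ b : ∀ q, P q,
  (∀ y : X', ∑ q, T q (b q) (r' q y) = 0) ↔ ∃ x : X, ∀ q, r q x = b q)

/-- `Sel_L → ∏ L q`. -/
def selToProd : ↥(sel r L) →ₗ[k] (∀ q, ↥(L q)) :=
  LinearMap.pi fun q => ((r q).comp (sel r L).subtype).codRestrict (L q)
    (fun x => (mem_sel r L x.1).1 x.2 q)

theorem selToProd_apply (x : ↥(sel r L)) (q : ι) : (selToProd r L x q : P q) = r q x := rfl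

include hmid in
theorem range_selToProd : LinearMap.range (selToProd r L) = LinearMap.ker (bil r' T L) := by
  ext l
  rw [LinearMap.mem_range, LinearMap.mem_ker]
  constructor
  · rintro ⟨x, rfl⟩
    apply LinearMap.ext
    intro y
    rw [bil_apply, LinearMap.zero_apply]
    exact (hmid (fun q => r q x)).2 ⟨x, fun _ => rfl⟩ y
  · intro h
    obtain ⟨x, hx⟩ := (hmid (fun q => (l q : P q))).1 (fun y => by
      have := LinearMap.congr_fun h y
      rwa [bil_apply] at this)
    have hxs : x ∈ sel r L := (mem_sel r L x).2 fun q => by rw [hx q]; exact (l q).2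
    refine ⟨⟨x, hxs⟩, ?_⟩
    funext q
    exact Subtype.ext (hx q)

theorem ker_selToProd :
    LinearMap.ker (selToProd r L) = (LinearMap.ker (LinearMap.pi r)).comap (sel r L).subtype := by
  ext x
  rw [LinearMap.mem_ker, Submodule.mem_comap, LinearMap.mem_ker]
  constructor
  · intro h
    funext q
    have := congrArg (fun l : ∀ q, ↥(L q) => (l q : P q)) h
    exact this
  · intro h
    funext q
    apply Subtype.ext
    exact congrFun h q

theorem ker_pi_le_sel : LinearMap.ker (LinearMap.pi r) ≤ sel r L := by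
  intro x hx
  rw [mem_sel]
  intro q
  have : r q x = 0 := congrFun (LinearMap.mem_ker.1 hx) q
  rw [this]
  exact (L q).zero_mem

variable [FiniteDimensional k X]

include hmid in
/-- **(A)** `dim Sel_L + dim X' = dim Ш + ∑ dim L q + dim Sel'_{L^⊥}` (middle exactness only). -/
theorem gw_count_A :
    finrank k (sel r L) + finrank k X' =
      finrank k (LinearMap.ker (LinearMap.pi r)) + (∑ q, finrank k (L q)) +
        finrank k (sel r' (fun q => annR (T q) (L q))) := by
  have h1 := LinearMap.finrank_range_add_finrank_ker (selToProd r L)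
  rw [range_selToProd r r' T L hmid, ker_selToProd,
    (Submodule.comapSubtypeEquivOfLe (ker_pi_le_sel r L)).finrank_eq] at h1
  have h2 := finrank_ker_bil r' T L
  omega

include hmid in
/-- **The Greenberg–Wiles count**:
`dim Sel_L + dim Ш' + ∑ dim P q = dim X + ∑ dim L q + dim Sel'_{L^⊥}`. -/
theorem gw_count (hright : ∀ q y, (∀ x, T q x y = 0) → y = 0) :
    finrank k (sel r L) + finrank k (LinearMap.ker (LinearMap.pi r')) + (∑ q, finrank k (P q)) =
      finrank k X + (∑ q, finrank k (L q)) +
        finrank k (sel r' (fun q => annR (T q) (L q))) := by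
  have hA := gw_count_A r r' T L hmid
  have hB := gw_count_A r r' T (fun _ => ⊤) hmid
  have h1 : sel r (fun q => (⊤ : Submodule k (P q))) = ⊤ := by
    rw [eq_top_iff]
    intro x _
    rw [mem_sel]
    intro q
    exact Submodule.mem_top
  have h2 : sel r' (fun q => annR (T q) (⊤ : Submodule k (P q))) =
      LinearMap.ker (LinearMap.pi r') := by
    ext y
    rw [mem_sel, LinearMap.mem_ker]
    constructor
    · intro h
      funext q
      have := h q
      rw [annR_top_eq_bot (T q) (hright q), Submodule.mem_bot] at this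
      exact this
    · intro h q
      have : r' q y = 0 := congrFun h q
      rw [this]
      exact Submodule.zero_mem _
  rw [h1, h2, finrank_top] at hB
  simp only [finrank_top] at hB
  omega

end Fermat.Agent.TW.GWAsm22.LinAlg
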