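/-
Programme TW (S56), sub-programme C (Greenberg–Wiles), brick C0 (helper22), file 2:
**the Greenberg–Wiles inequality from the bricks.**

For a set of places `S ∋ p` and a good module `M`:
`MiddleExact perp S M` (C1) + `LocalEuler q M` for `q ∈ S` (C4) + `ShaCount S M` (C5, = S55) +
`TailBound S M` (C2, easy half) + `GlobalEulerLe S M` (C3, Tate) + finiteness of
`H¹(G_S, M)`, `H¹(G_S, M^*)`, `H²(G_S, M)`  ⟹  `GWIneq perp S M L` for every family `L`.

Count: `dim Sel_L + dim Ш¹(M^*) + ∑ h¹_q(M) = h¹(M) + ∑ dim L_q + dim Sel^*_{L^⊥}` (`LinAlg.gw_count`),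
`h¹_q(M) = h⁰_q(M) + h²_q(M) + [q = p] dim M`, `dim Ш¹(M^*) = dim Ш²(M) = h²(M) − rk loc²`,
`rk loc² + h⁰(M^*) ≤ ∑ h²_q(M)`, `h¹(M) + h⁰(ℝ, M) ≤ h⁰(M) + h²(M) + dim M`.
-/
import Mathlib
import Fermat.Agent.TW.GWIface2_97
import Fermat.Agent.TW.GWAsm22.LinAlg

set_option autoImplicit false
set_option linter.style.haveILetI false
set_option linter.unusedSectionVars false

open ExtCitation
open Fermat.Agent.PT.PRO Fermat.Agent.PT.BR Fermat.Agent.PT.BR.LevelBridge13

namespace Fermat.Agent.TW.GWAsm22.Ineq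

open Fermat.Agent.TW.GWIface97 Fermat.Agent.TW.GWIface2_97 Fermat.Agent.TW.GWAsm22.LinAlg

local notation "Γ" => (AlgebraicClosure ℚ ≃ₐ[ℚ] AlgebraicClosure ℚ)

variable {p : ℕ} [Fact p.Prime]

/-- The `[q = p] dim M` terms add up to `dim M` when `p ∈ S`. -/
theorem sum_ite_eq_of_mem {S : Finset Nat.Primes} (hpS : pPrime p ∈ S) (d : ℕ) :
    (∑ q : ↥S, if ((q.1 : Nat.Primes) : ℕ) = p then d else 0) = d := by
  rw [Finset.sum_eq_single (⟨pPrime p, hpS⟩ : ↥S)]
  · exact if_pos rfl
  · intro q _ hq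
    rw [if_neg]
    intro h
    apply hq
    apply Subtype.ext
    exact Subtype.ext h
  · intro h
    exact absurd (Finset.mem_univ _) h

/-- The arithmetic behind the Greenberg–Wiles inequality. -/
theorem gw_arith {sl sha1 sumH1 X sumL sl' h0g' h0g_ sumh0 sumh2 dimM h0c_ rk sha2 H2 : ℕ}
    (hcount : sl + sha1 + sumH1 = X + sumL + sl')
    (hloc : sumH1 = sumh0 + sumh2 + dimM)
    (hsha : sha1 = sha2)
    (hrn : rk + sha2 = H2)
    (hTail : rk + h0g' ≤ sumh2)
    (hTate : X + h0c_ ≤ h0g_ + H2 + dimM) :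
    sl + h0g' + sumh0 + h0c_ ≤ sl' + h0g_ + sumL := by omega

/-- **(C0-1) The Greenberg–Wiles inequality from the bricks.** -/
theorem gwIneq_of_bricks
    {perp : ∀ (q : Nat.Primes) (M : Rep.{0} (ZMod p) Γ),
      Submodule (ZMod p) (H1l q M) → Submodule (ZMod p) (H1l q (dual M))}
    (S : Finset Nat.Primes) (M : Rep.{0} (ZMod p) Γ) (hpS : pPrime p ∈ S)
    (hME : MiddleExact perp S M)
    (hfin1 : Module.Finite (ZMod p) (H1g S M))
    (hfin1' : Module.Finite (ZMod p) (H1g S (dual M)))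
    (hfin2 : Module.Finite (ZMod p) (H2g S M))
    (hLE : ∀ q : ↥S, LocalEuler q.1 M)
    (hSha : ShaCount S M) (hTail : TailBound S M) (hTate : GlobalEulerLe S M)
    (L : ∀ q : ↥S, Submodule (ZMod p) (H1l q.1 M)) : GWIneq perp S M L := by
  classical
  obtain ⟨T, hperp, hmid⟩ := hME
  letI i1 : ∀ q : ↥S, AddCommGroup (H1l q.1 M) := fun q => inferInstance
  letI i2 : ∀ q : ↥S, Module (ZMod p) (H1l q.1 M) := fun q => inferInstance
  letI i3 : ∀ q : ↥S, AddCommGroup (H1l q.1 (dual M)) := fun q => inferInstance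
  letI i4 : ∀ q : ↥S, Module (ZMod p) (H1l q.1 (dual M)) := fun q => inferInstance
  haveI : ∀ q : ↥S, FiniteDimensional (ZMod p) (H1l q.1 M) := fun q => (hLE q).1
  -- the abstract count
  have hcount := gw_count (k := ZMod p) (ι := ↥S) (X := H1g S M) (X' := H1g S (dual M))
    (P := fun q : ↥S => H1l q.1 M) (P' := fun q : ↥S => H1l q.1 (dual M))
    (fun q => res1 S q.1 M) (fun q => res1 S q.1 (dual M)) (fun q => (T q).pair) L
    (fun b => hmid b) (fun q y hy => by
      have := (T q).right y hy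
      exact this)
  -- identify the pieces
  have hsel : sel (fun q : ↥S => res1 S q.1 M) L = Sel S M L := rfl
  have hsel' : sel (fun q : ↥S => res1 S q.1 (dual M)) (fun q => annR (T q).pair (L q)) =
      Sel S (dual M) (fun q => perp q.1 M (L q)) := by
    have : ∀ q : ↥S, annR (T q).pair (L q) = perp q.1 M (L q) := fun q => by
      rw [← hperp q (L q)]
      rfl
    simp only [this]
    rfl
  have hker : LinearMap.ker (LinearMap.pi fun q : ↥S => res1 S q.1 (dual M)) =
      LinearMap.ker (ShaBridge13.locH1 S (dual M)) := rfl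
  rw [hsel, hsel', hker] at hcount
  -- local Euler characteristics
  have hloc : (∑ q : ↥S, Module.finrank (ZMod p) (H1l q.1 M)) =
      (∑ q : ↥S, h0l q.1 M) + (∑ q : ↥S, Module.finrank (ZMod p) (H2l q.1 M)) +
        Module.finrank (ZMod p) M := by
    rw [← sum_ite_eq_of_mem hpS (Module.finrank (ZMod p) M), ← Finset.sum_add_distrib,
      ← Finset.sum_add_distrib]
    exact Finset.sum_congr rfl fun q _ => (hLE q).2.2.2
  -- Ш¹(M^*) = Ш²(M), rank-nullity for `loc²`
  obtain ⟨_, hfinK2, hsha⟩ := hSha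
  have hrn : Module.finrank (ZMod p) (LinearMap.range (ShaBridge13.locH2 S M)) +
      Module.finrank (ZMod p) (LinearMap.ker (ShaBridge13.locH2 S M)) =
        Module.finrank (ZMod p) (H2g S M) := by
    letI i5 : ∀ q : ↥S, AddCommGroup (H2l q.1 M) := fun q => inferInstance
    letI i6 : ∀ q : ↥S, Module (ZMod p) (H2l q.1 M) := fun q => inferInstance
    haveI : FiniteDimensional (ZMod p) (H2g S M) := hfin2
    exact LinearMap.finrank_range_add_finrank_ker (K := ZMod p) (V := H2g S M)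
      (V₂ := ∀ q : ↥S, H2l q.1 M) (ShaBridge13.locH2 S M)
  exact gw_arith hcount hloc hsha hrn hTail hTate

end Fermat.Agent.TW.GWAsm22.Ineq
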