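/-
Programme TW (S56), sub-programme C (Greenberg–Wiles), brick C0 (helper22), file 5:
**transport along equivariant isomorphisms** (in particular `M ≅ M^{**}`), and goodness of the
Tate dual.

For an equivariant linear bijection `Φ : A → B` of `Γ`-modules:
`h⁰(A) = h⁰(B)`, `h⁰(ℚ_q, A) = h⁰(ℚ_q, B)`, `hⁱ(G_S, A) = hⁱ(G_S, B)`, `hⁱ(ℚ_q, A) = hⁱ(ℚ_q, B)`,
`dim Ш¹_S(A) = dim Ш¹_S(B)` (with finiteness), `rk loc²` etc.
-/
import Mathlib
import Fermat.Agent.TW.GWIface2_97
import Fermat.Agent.PT.PRO.ShapiroSm28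
import Fermat.Agent.PT.BR.DualTwist7

set_option autoImplicit false
set_option linter.style.haveILetI false
set_option linter.unusedSectionVars false

open ExtCitation
open Fermat.Agent.PT.PRO Fermat.Agent.PT.BR Fermat.Agent.PT.BR.LevelBridge13

namespace Fermat.Agent.TW.GWAsm22.Transport

open Fermat.Agent.TW.GWIface97 Fermat.Agent.TW.GWIface2_97

local notation "Γ" => (AlgebraicClosure ℚ ≃ₐ[ℚ] AlgebraicClosure ℚ)

variable {p : ℕ} [Fact p.Prime]

/-! ### Goodness of the dual -/

theorem isGood_dual {S : Finset Nat.Primes} (hpS : pPrime p ∈ S) {M : Rep.{0} (ZMod p) Γ}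
    (hM : IsGood S M) : IsGood S (dual M) := by
  haveI := hM.fin
  exact ⟨DualTwist7.finiteDimensional_dualTwist M, DualTwist7.smooth_dualTwist M hM.smooth,
    DualTwist7.unram_dualTwist M hpS hM.unram⟩

theorem isGood_mono {S S' : Finset Nat.Primes} (h : S ⊆ S') {M : Rep.{0} (ZMod p) Γ}
    (hM : IsGood S M) : IsGood S' M :=
  ⟨hM.fin, hM.smooth, fun q hq => hM.unram q (fun hqS => hq (h hqS))⟩

/-! ### Invariants -/

theorem finrank_invariants_congr {G : Type} [Group G] {V W : Type} [AddCommGroup V]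
    [Module (ZMod p) V] [AddCommGroup W] [Module (ZMod p) W]
    (ρ : Representation (ZMod p) G V) (σ : Representation (ZMod p) G W)
    (e : V ≃ₗ[ZMod p] W) (he : ∀ g v, e (ρ g v) = σ g (e v)) :
    Module.finrank (ZMod p) ρ.invariants = Module.finrank (ZMod p) σ.invariants := by
  have h : ρ.invariants.map (e : V →ₗ[ZMod p] W) = σ.invariants := by
    ext w
    rw [Submodule.mem_map]
    constructor
    · rintro ⟨v, hv, rfl⟩
      intro g
      show σ g (e v) = e v
      rw [← he, hv g]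
    · intro hw
      refine ⟨e.symm w, fun g => ?_, e.apply_symm_apply w⟩
      apply e.injective
      rw [he, e.apply_symm_apply]
      exact hw g
  rw [← h]
  exact (LinearEquiv.finrank_map_eq e _).symm

section Congr

variable (S : Finset Nat.Primes) {A B : Rep.{0} (ZMod p) Γ} (Φ : A →ₗ[ZMod p] B)
  (hΦ : ∀ g a, Φ (A.ρ g a) = B.ρ g (Φ a)) (hbij : Function.Bijective Φ)

include hΦ hbij in
theorem h0g_congr : h0g A = h0g B :=
  finrank_invariants_congr A.ρ B.ρ (LinearEquiv.ofBijective Φ hbij) hΦ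

include hΦ hbij in
theorem h0l_congr (q : Nat.Primes) : h0l q A = h0l q B :=
  finrank_invariants_congr (Rep.res (primeLocalToGlobal q) A).ρ (Rep.res (primeLocalToGlobal q) B).ρ
    (LinearEquiv.ofBijective Φ hbij) (fun g a => hΦ (primeLocalToGlobal q g) a)

/-- `Φ` on the local `H¹`. -/
noncomputable def locMap1 (q : Nat.Primes) : H1l q A →ₗ[ZMod p] H1l q B :=
  LevelCoh28.mapH1 (𝓑 := pullBasis (primeLocalToGlobal q))
    (A := Rep.res (primeLocalToGlobal q) A) (B := Rep.res (primeLocalToGlobal q) B) Φ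
    (fun g a => hΦ (primeLocalToGlobal q g) a)

/-- `Φ` on the local `H²`. -/
noncomputable def locMap2 (q : Nat.Primes) : H2l q A →ₗ[ZMod p] H2l q B :=
  LevelCoh28.mapH2 (𝓑 := pullBasis (primeLocalToGlobal q))
    (A := Rep.res (primeLocalToGlobal q) A) (B := Rep.res (primeLocalToGlobal q) B) Φ
    (fun g a => hΦ (primeLocalToGlobal q g) a)

include hbij in
theorem locMap1_bijective (q : Nat.Primes) : Function.Bijective (locMap1 Φ hΦ q) :=
  ShapiroSm28.mapH1_bijective (𝓑 := pullBasis (primeLocalToGlobal q))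
    (A := Rep.res (primeLocalToGlobal q) A) (B := Rep.res (primeLocalToGlobal q) B) Φ
    (fun g a => hΦ (primeLocalToGlobal q g) a) hbij

include hbij in
theorem locMap2_bijective (q : Nat.Primes) : Function.Bijective (locMap2 Φ hΦ q) :=
  ShapiroSm28.mapH2_bijective (𝓑 := pullBasis (primeLocalToGlobal q))
    (A := Rep.res (primeLocalToGlobal q) A) (B := Rep.res (primeLocalToGlobal q) B) Φ
    (fun g a => hΦ (primeLocalToGlobal q g) a) hbij

/-- `Φ` on the global `H¹`. -/
noncomputable def globMap1 : H1g S A →ₗ[ZMod p] H1g S B :=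
  LevelCoh28.mapH1 (𝓑 := globalBasis S) Φ hΦ

/-- `Φ` on the global `H²`. -/
noncomputable def globMap2 : H2g S A →ₗ[ZMod p] H2g S B :=
  LevelCoh28.mapH2 (𝓑 := globalBasis S) Φ hΦ

include hbij in
theorem globMap1_bijective : Function.Bijective (globMap1 S Φ hΦ) :=
  ShapiroSm28.mapH1_bijective (𝓑 := globalBasis S) Φ hΦ hbij

include hbij in
theorem globMap2_bijective : Function.Bijective (globMap2 S Φ hΦ) :=
  ShapiroSm28.mapH2_bijective (𝓑 := globalBasis S) Φ hΦ hbij

theorem res1_globMap1 (q : Nat.Primes) (x : H1g S A) :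
    res1 S q B (globMap1 S Φ hΦ x) = locMap1 Φ hΦ q (res1 S q A x) := by
  obtain ⟨c, rfl⟩ := LevelCoh28.H1mk_surjective _ _ x
  rfl

theorem res2_globMap2 (q : Nat.Primes) (x : H2g S A) :
    res2 S q B (globMap2 S Φ hΦ x) = locMap2 Φ hΦ q (res2 S q A x) := by
  obtain ⟨c, rfl⟩ := LevelCoh28.H2mk_surjective _ _ x
  rfl

include hΦ hbij in
theorem finrank_H1g_congr :
    Module.finrank (ZMod p) (H1g S A) = Module.finrank (ZMod p) (H1g S B) :=
  LinearEquiv.finrank_eq (LinearEquiv.ofBijective _ (globMap1_bijective S Φ hΦ hbij))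

include hΦ hbij in
theorem finrank_H2g_congr :
    Module.finrank (ZMod p) (H2g S A) = Module.finrank (ZMod p) (H2g S B) :=
  LinearEquiv.finrank_eq (LinearEquiv.ofBijective _ (globMap2_bijective S Φ hΦ hbij))

include hΦ hbij in
theorem finrank_H1l_congr (q : Nat.Primes) :
    Module.finrank (ZMod p) (H1l q A) = Module.finrank (ZMod p) (H1l q B) :=
  LinearEquiv.finrank_eq (LinearEquiv.ofBijective _ (locMap1_bijective Φ hΦ hbij q))

include hΦ hbij in
theorem finrank_H2l_congr (q : Nat.Primes) :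
    Module.finrank (ZMod p) (H2l q A) = Module.finrank (ZMod p) (H2l q B) :=
  LinearEquiv.finrank_eq (LinearEquiv.ofBijective _ (locMap2_bijective Φ hΦ hbij q))

include hbij in
/-- The isomorphism `H¹(G_S, A) ≃ H¹(G_S, B)` carries `Ш¹_S(A)` onto `Ш¹_S(B)`. -/
theorem map_ker_locH1 :
    (LinearMap.ker (ShaBridge13.locH1 S A)).map
        ((LinearEquiv.ofBijective _ (globMap1_bijective S Φ hΦ hbij) :
          H1g S A ≃ₗ[ZMod p] H1g S B) : H1g S A →ₗ[ZMod p] H1g S B) =
      LinearMap.ker (ShaBridge13.locH1 S B) := by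
  ext y
  rw [Submodule.mem_map, ShaBridge13.mem_ker_locH1_iff]
  constructor
  · rintro ⟨x, hx, rfl⟩ q
    rw [ShaBridge13.mem_ker_locH1_iff] at hx
    show res1 S q.1 B (globMap1 S Φ hΦ x) = 0
    rw [res1_globMap1]
    have := hx q
    change res1 S q.1 A x = 0 at this
    rw [this, map_zero]
  · intro hy
    obtain ⟨x, rfl⟩ := (globMap1_bijective S Φ hΦ hbij).2 y
    refine ⟨x, ?_, rfl⟩
    rw [ShaBridge13.mem_ker_locH1_iff]
    intro q
    have := hy q
    change res1 S q.1 B (globMap1 S Φ hΦ x) = 0 at this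
    rw [res1_globMap1] at this
    apply (locMap1_bijective Φ hΦ hbij q.1).1
    rw [this, map_zero]

include hΦ hbij in
/-- `Ш¹_S(A) ≃ Ш¹_S(B)`. -/
theorem nonempty_kerEquiv :
    Nonempty (↥(LinearMap.ker (ShaBridge13.locH1 S A)) ≃ₗ[ZMod p]
      ↥(LinearMap.ker (ShaBridge13.locH1 S B))) :=
  ⟨((LinearEquiv.ofBijective _ (globMap1_bijective S Φ hΦ hbij) :
      H1g S A ≃ₗ[ZMod p] H1g S B).submoduleMap (LinearMap.ker (ShaBridge13.locH1 S A))).trans
    (LinearEquiv.ofEq _ _ (map_ker_locH1 S Φ hΦ hbij))⟩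

include hΦ hbij in
theorem finrank_ker_locH1_congr :
    Module.finrank (ZMod p) (LinearMap.ker (ShaBridge13.locH1 S A)) =
      Module.finrank (ZMod p) (LinearMap.ker (ShaBridge13.locH1 S B)) := by
  obtain ⟨e⟩ := nonempty_kerEquiv S Φ hΦ hbij
  exact e.finrank_eq

include hΦ hbij in
theorem finite_ker_locH1_congr :
    Module.Finite (ZMod p) (LinearMap.ker (ShaBridge13.locH1 S A)) ↔
      Module.Finite (ZMod p) (LinearMap.ker (ShaBridge13.locH1 S B)) := by
  obtain ⟨e⟩ := nonempty_kerEquiv S Φ hΦ hbij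
  exact ⟨fun _ => Module.Finite.equiv e, fun _ => Module.Finite.equiv e.symm⟩

end Congr

/-! ### The double dual -/

section DDual

variable (M : Rep.{0} (ZMod p) Γ) [FiniteDimensional (ZMod p) M]

/-- The evaluation map `M → M^{**}`. -/
noncomputable def ev : M →ₗ[ZMod p] dual (dual M) :=
  (DualTwist7.ddualEquiv (cycloChar p) M : M →ₗ[ZMod p] dual (dual M))

theorem ev_ρ (g : Γ) (m : M) : ev M (M.ρ g m) = (dual (dual M)).ρ g (ev M m) :=
  DualTwist7.ddualEquiv_ρ (cycloChar p) M g m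

theorem ev_bijective : Function.Bijective (ev M) :=
  (DualTwist7.ddualEquiv (cycloChar p) M).bijective

theorem h0g_ddual : h0g (dual (dual M)) = h0g M :=
  (h0g_congr (ev M) (ev_ρ M) (ev_bijective M)).symm

theorem h0l_ddual (q : Nat.Primes) : h0l q (dual (dual M)) = h0l q M :=
  (h0l_congr (ev M) (ev_ρ M) (ev_bijective M) q).symm

end DDual

end Fermat.Agent.TW.GWAsm22.Transport
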