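/-
Programme TW (S56), sub-programme C (Greenberg–Wiles), brick C0 (helper22), file 6:
**the three inputs `GlobalFin`, `GlobalSym`, `GlobalTail` of Tate's formula (C3) from the bricks
C1, C2, C4, C5.**

* `globalFin_of_bricks`  : `Ш²(M)`, `Ш¹(M^{**})` finite (C5 for `M`, `M^*`) + local finiteness (C4).
* `globalTail_of_bricks` : `TailEq` (C2) + `h²_q(M) = h⁰_q(M^*)` (C4) + `rk loc² ≤ h²`.
* `globalSym_of_bricks`  : `h¹(M) + h¹(M^*) = ∑ h¹_q(M) + dim Ш¹(M) + dim Ш¹(M^*)` (C1, the count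
  with `L = 0`), `Ш¹(M^*) = Ш²(M)`, `Ш¹(M) ≃ Ш¹(M^{**}) = Ш²(M^*)` (C5), the tails of `M` and `M^*`
  (C2) and the local Euler characteristics of `M` and `M^*` (C4).
-/
import Mathlib
import Fermat.Agent.TW.GWIface2_97
import Fermat.Agent.TW.GWAsm22.LinAlg
import Fermat.Agent.TW.GWAsm22.Lite
import Fermat.Agent.TW.GWAsm22.Ineq
import Fermat.Agent.TW.GWAsm22.Transport

set_option autoImplicit false
set_option linter.style.haveILetI false
set_option linter.unusedSectionVars false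

open ExtCitation
open Fermat.Agent.PT.PRO Fermat.Agent.PT.BR Fermat.Agent.PT.BR.LevelBridge13

namespace Fermat.Agent.TW.GWAsm22.Global

open Fermat.Agent.TW.GWIface97 Fermat.Agent.TW.GWIface2_97 Fermat.Agent.TW.GWAsm22.LinAlg
  Fermat.Agent.TW.GWAsm22.Transport

local notation "Γ" => (AlgebraicClosure ℚ ≃ₐ[ℚ] AlgebraicClosure ℚ)

/-! ### Linear algebra -/

section LA

open Module

variable {k : Type*} [Field k]

/-- A space with finite-dimensional kernel into a finite-dimensional space is finite-dimensional. -/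
theorem finite_of_ker_of_target {V W : Type*} [AddCommGroup V] [Module k V] [AddCommGroup W]
    [Module k W] (f : V →ₗ[k] W) [Module.Finite k (LinearMap.ker f)] [Module.Finite k W] :
    Module.Finite k V := by
  haveI : Module.Finite k (V ⧸ LinearMap.ker f) :=
    Module.Finite.equiv f.quotKerEquivRange.symm
  exact Module.Finite.of_submodule_quotient (LinearMap.ker f)

variable {ι : Type*} [Fintype ι] [DecidableEq ι]
  {X X' : Type*} [AddCommGroup X] [Module k X] [AddCommGroup X'] [Module k X']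
  {P P' : ι → Type*} [∀ q, AddCommGroup (P q)] [∀ q, Module k (P q)]
  [∀ q, AddCommGroup (P' q)] [∀ q, Module k (P' q)]
  (r : ∀ q, X →ₗ[k] P q) (r' : ∀ q, X' →ₗ[k] P' q)
  (T : ∀ q, P q →ₗ[k] P' q →ₗ[k] k)
  [FiniteDimensional k X] [FiniteDimensional k X'] [∀ q, FiniteDimensional k (P q)]

/-- The count with `L = 0`: `dim Ш + dim Ш' + ∑ dim P q = dim X + dim X'`. -/
theorem gw_count_bot
    (hmid : ∀ b : ∀ q, P q,
      (∀ y : X', ∑ q, T q (b q) (r' q y) = 0) ↔ ∃ x : X, ∀ q, r q x = b q)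
    (hright : ∀ q y, (∀ x, T q x y = 0) → y = 0) :
    finrank k (LinearMap.ker (LinearMap.pi r)) + finrank k (LinearMap.ker (LinearMap.pi r')) +
      (∑ q, finrank k (P q)) = finrank k X + finrank k X' := by
  have h := gw_count r r' T (fun _ => ⊥) hmid hright
  have h1 : sel r (fun q => (⊥ : Submodule k (P q))) = LinearMap.ker (LinearMap.pi r) := by
    ext x
    rw [mem_sel, LinearMap.mem_ker]
    constructor
    · intro hx
      funext q
      exact (Submodule.mem_bot k).1 (hx q)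
    · intro hx q
      rw [Submodule.mem_bot]
      exact congrFun hx q
  have h2 : sel r' (fun q => annR (T q) (⊥ : Submodule k (P q))) = ⊤ := by
    rw [eq_top_iff]
    intro y _
    rw [mem_sel]
    intro q x hx
    rw [(Submodule.mem_bot k).1 hx, map_zero, LinearMap.zero_apply]
  rw [h1, h2, finrank_top] at h
  simpa using h

end LA

variable {p : ℕ} [Fact p.Prime]

/-! ### Abbreviations for the dimensions (general coefficient module, to avoid the instance
problem on `∏_q H(ℚ_q, dual M)`) -/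

/-- `dim Ш¹_S(A)`. -/
noncomputable def dSha1 (S : Finset Nat.Primes) (A : Rep.{0} (ZMod p) Γ) : ℕ :=
  Module.finrank (ZMod p) (LinearMap.ker (ShaBridge13.locH1 S A))

/-- `dim Ш²_S(A)`. -/
noncomputable def dSha2 (S : Finset Nat.Primes) (A : Rep.{0} (ZMod p) Γ) : ℕ :=
  Module.finrank (ZMod p) (LinearMap.ker (ShaBridge13.locH2 S A))

/-- `rk (H²(G_S, A) → ∏ H²(ℚ_q, A))`. -/
noncomputable def rk2 (S : Finset Nat.Primes) (A : Rep.{0} (ZMod p) Γ) : ℕ :=
  Module.finrank (ZMod p) (LinearMap.range (ShaBridge13.locH2 S A))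

theorem shaCount_dim {S : Finset Nat.Primes} {M : Rep.{0} (ZMod p) Γ} (h : ShaCount S M) :
    dSha1 S (dual M) = dSha2 S M := h.2.2

theorem tailEq_dim {S : Finset Nat.Primes} {M : Rep.{0} (ZMod p) Γ} (h : TailEq S M) :
    rk2 S M + h0g (dual M) = ∑ q : ↥S, Module.finrank (ZMod p) (H2l q.1 M) := h

theorem rk2_add_dSha2 (S : Finset Nat.Primes) (M : Rep.{0} (ZMod p) Γ)
    (hfin : Module.Finite (ZMod p) (H2g S M)) :
    rk2 S M + dSha2 S M = Module.finrank (ZMod p) (H2g S M) :=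
  Lite.rank_nullity_locH2 S M hfin

/-! ### (FIN) -/

theorem finite_H2g_of_bricks (S : Finset Nat.Primes) (M : Rep.{0} (ZMod p) Γ)
    (hLE : ∀ q : ↥S, LocalEuler q.1 M) (hSha : ShaCount S M) :
    Module.Finite (ZMod p) (H2g S M) := by
  letI i5 : ∀ q : ↥S, AddCommGroup (H2l q.1 M) := fun q => inferInstance
  letI i6 : ∀ q : ↥S, Module (ZMod p) (H2l q.1 M) := fun q => inferInstance
  haveI : ∀ q : ↥S, Module.Finite (ZMod p) (H2l q.1 M) := fun q => (hLE q).2.1
  haveI : Module.Finite (ZMod p) (LinearMap.ker (ShaBridge13.locH2 S M)) := hSha.2.1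
  exact finite_of_ker_of_target (k := ZMod p) (V := H2g S M) (W := ∀ q : ↥S, H2l q.1 M)
    (ShaBridge13.locH2 S M)

theorem finite_H1g_of_ker (S : Finset Nat.Primes) (M : Rep.{0} (ZMod p) Γ)
    (hLE : ∀ q : ↥S, LocalEuler q.1 M)
    (hker : Module.Finite (ZMod p) (LinearMap.ker (ShaBridge13.locH1 S M))) :
    Module.Finite (ZMod p) (H1g S M) := by
  letI i5 : ∀ q : ↥S, AddCommGroup (H1l q.1 M) := fun q => inferInstance
  letI i6 : ∀ q : ↥S, Module (ZMod p) (H1l q.1 M) := fun q => inferInstance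
  haveI : ∀ q : ↥S, Module.Finite (ZMod p) (H1l q.1 M) := fun q => (hLE q).1
  haveI : Module.Finite (ZMod p) (LinearMap.ker (ShaBridge13.locH1 S M)) := hker
  exact finite_of_ker_of_target (k := ZMod p) (V := H1g S M) (W := ∀ q : ↥S, H1l q.1 M)
    (ShaBridge13.locH1 S M)

/-- **(FIN) from the bricks**: C4 for `M` + C5 for `M` and `M^*`. -/
theorem globalFin_of_bricks (S : Finset Nat.Primes) (M : Rep.{0} (ZMod p) Γ)
    [FiniteDimensional (ZMod p) M]
    (hLE : ∀ q : ↥S, LocalEuler q.1 M) (hSha : ShaCount S M) (hSha' : ShaCount S (dual M)) :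
    GlobalFin S M := by
  refine ⟨finite_H1g_of_ker S M hLE ?_, finite_H2g_of_bricks S M hLE hSha⟩
  exact (finite_ker_locH1_congr S (ev M) (ev_ρ M) (ev_bijective M)).2 hSha'.1

/-! ### (TAIL) -/

theorem tail_arith {s t rk h0 h2 sha : ℕ} (h1 : s = t) (h2' : rk + h0 = t) (h3 : rk + sha = h2) :
    s ≤ h2 + h0 := by omega

/-- **(TAIL) from the bricks**: C2 (equality) + C4 for `M` + finiteness of `H²(G_S, M)`. -/
theorem globalTail_of_bricks (S : Finset Nat.Primes) (M : Rep.{0} (ZMod p) Γ)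
    (hfin2 : Module.Finite (ZMod p) (H2g S M))
    (hLE : ∀ q : ↥S, LocalEuler q.1 M) (hTail : TailEq S M) : GlobalTail S M := by
  have h1 : (∑ q : ↥S, h0l q.1 (dual M)) = ∑ q : ↥S, Module.finrank (ZMod p) (H2l q.1 M) :=
    Finset.sum_congr rfl fun q _ => (hLE q).2.2.1.symm
  exact tail_arith h1 (tailEq_dim hTail) (rk2_add_dSha2 S M hfin2)

/-! ### (SYM) -/

/-- The count with `L = 0` from middle exactness:
`dim Ш¹(M) + dim Ш¹(M^*) + ∑ h¹_q(M) = h¹(M) + h¹(M^*)`. -/
theorem middle_count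
    {perp : ∀ (q : Nat.Primes) (M : Rep.{0} (ZMod p) Γ),
      Submodule (ZMod p) (H1l q M) → Submodule (ZMod p) (H1l q (dual M))}
    (S : Finset Nat.Primes) (M : Rep.{0} (ZMod p) Γ)
    (hME : MiddleExact perp S M)
    (hfin1 : Module.Finite (ZMod p) (H1g S M))
    (hfin1' : Module.Finite (ZMod p) (H1g S (dual M)))
    (hfinl : ∀ q : ↥S, Module.Finite (ZMod p) (H1l q.1 M)) :
    dSha1 S M + dSha1 S (dual M) + (∑ q : ↥S, Module.finrank (ZMod p) (H1l q.1 M)) =
      Module.finrank (ZMod p) (H1g S M) + Module.finrank (ZMod p) (H1g S (dual M)) := by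
  classical
  obtain ⟨T, -, hmid⟩ := hME
  letI i1 : ∀ q : ↥S, AddCommGroup (H1l q.1 M) := fun q => inferInstance
  letI i2 : ∀ q : ↥S, Module (ZMod p) (H1l q.1 M) := fun q => inferInstance
  letI i3 : ∀ q : ↥S, AddCommGroup (H1l q.1 (dual M)) := fun q => inferInstance
  letI i4 : ∀ q : ↥S, Module (ZMod p) (H1l q.1 (dual M)) := fun q => inferInstance
  haveI : ∀ q : ↥S, FiniteDimensional (ZMod p) (H1l q.1 M) := hfinl
  exact gw_count_bot (k := ZMod p) (ι := ↥S) (X := H1g S M) (X' := H1g S (dual M))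
    (P := fun q : ↥S => H1l q.1 M) (P' := fun q : ↥S => H1l q.1 (dual M))
    (fun q => res1 S q.1 M) (fun q => res1 S q.1 (dual M)) (fun q => (T q).pair)
    (fun b => hmid b) (fun q y hy => by
      have := (T q).right y hy
      exact this)

theorem sym_arith {sha1M sha1M' sumH1 h1M h1M' sumh0 sumh2 dimM sha2M sha2M' sha1M''
    rkM rkM' h2M h2M' h0gM h0gM' h0gM'' sumh2' : ℕ}
    (hmid : sha1M + sha1M' + sumH1 = h1M + h1M')
    (hloc : sumH1 = sumh0 + sumh2 + dimM)
    (hsha : sha1M' = sha2M) (hsha' : sha1M'' = sha2M') (htr : sha1M = sha1M'')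
    (hrn : rkM + sha2M = h2M) (hrn' : rkM' + sha2M' = h2M')
    (htail : rkM + h0gM' = sumh2) (htail' : rkM' + h0gM'' = sumh2')
    (h0 : h0gM'' = h0gM) (hl : sumh2' = sumh0) :
    h0gM + h2M + h0gM' + h2M' + dimM = h1M + h1M' := by omega

/-- **(SYM) from the bricks**: C1 for `M`; C2, C4, C5 for `M` and `M^*`; (FIN) for `M`, `M^*`. -/
theorem globalSym_of_bricks
    {perp : ∀ (q : Nat.Primes) (M : Rep.{0} (ZMod p) Γ),
      Submodule (ZMod p) (H1l q M) → Submodule (ZMod p) (H1l q (dual M))}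
    (S : Finset Nat.Primes) (M : Rep.{0} (ZMod p) Γ) [FiniteDimensional (ZMod p) M]
    (hpS : pPrime p ∈ S)
    (hME : MiddleExact perp S M)
    (hLE : ∀ q : ↥S, LocalEuler q.1 M) (hLE' : ∀ q : ↥S, LocalEuler q.1 (dual M))
    (hSha : ShaCount S M) (hSha' : ShaCount S (dual M))
    (hTail : TailEq S M) (hTail' : TailEq S (dual M))
    (hfin : GlobalFin S M) (hfin' : GlobalFin S (dual M)) : GlobalSym S M := by
  have hmid := middle_count S M hME hfin.1 hfin'.1 (fun q => (hLE q).1)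
  have hloc : (∑ q : ↥S, Module.finrank (ZMod p) (H1l q.1 M)) =
      (∑ q : ↥S, h0l q.1 M) + (∑ q : ↥S, Module.finrank (ZMod p) (H2l q.1 M)) +
        Module.finrank (ZMod p) M := by
    rw [← Ineq.sum_ite_eq_of_mem hpS (Module.finrank (ZMod p) M), ← Finset.sum_add_distrib,
      ← Finset.sum_add_distrib]
    exact Finset.sum_congr rfl fun q _ => (hLE q).2.2.2
  have htr : dSha1 S M = dSha1 S (dual (dual M)) :=
    finrank_ker_locH1_congr S (ev M) (ev_ρ M) (ev_bijective M)
  have hl : (∑ q : ↥S, Module.finrank (ZMod p) (H2l q.1 (dual M))) = ∑ q : ↥S, h0l q.1 M :=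
    Finset.sum_congr rfl fun q _ => by rw [(hLE' q).2.2.1, h0l_ddual]
  exact sym_arith hmid hloc (shaCount_dim hSha) (shaCount_dim hSha') htr
    (rk2_add_dSha2 S M hfin.2) (rk2_add_dSha2 S (dual M) hfin'.2)
    (tailEq_dim hTail) (tailEq_dim hTail') (h0g_ddual M) hl

end Fermat.Agent.TW.GWAsm22.Global
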