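/-
Programme TW (S56), sub-programme C (Greenberg–Wiles), brick C0 (helper22), file 7:
**the weak Greenberg–Wiles package `GWPackageW p` from the bricks C1 – C5.**

Inputs (all for `p ≠ 2`, all sets of places `S ∋ p`, all good `M`):
* (C1) `MiddleExact perp₀ S M` for ONE intrinsic `perp₀` (or `MiddleExactLite`, see `Lite`);
* (C2) `TailEq S M`;
* (C3) `TateStatement p` (helper62);
* (C4) `LocalEuler q M` for all primes `q`;
* (C5) `ShaCount S M` (= `GWSha97.shaCount`, plugged in `PackageSha.lean`).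
-/
import Mathlib
import Fermat.Agent.TW.GWIface2_97
import Fermat.Agent.TW.GWAsm22.Global

set_option autoImplicit false
set_option linter.style.haveILetI false
set_option linter.unusedSectionVars false

open ExtCitation
open Fermat.Agent.PT.PRO Fermat.Agent.PT.BR Fermat.Agent.PT.BR.LevelBridge13

namespace Fermat.Agent.TW.GWAsm22.Package

open Fermat.Agent.TW.GWIface97 Fermat.Agent.TW.GWIface2_97
  Fermat.Agent.TW.GWAsm22.Transport Fermat.Agent.TW.GWAsm22.Global

local notation "Γ" => (AlgebraicClosure ℚ ≃ₐ[ℚ] AlgebraicClosure ℚ)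

variable {p : ℕ} [Fact p.Prime]

theorem localPairing_perp_top {q : Nat.Primes} {M : Rep.{0} (ZMod p) Γ} (T : LocalPairing q M) :
    T.perp ⊤ = ⊥ := by
  rw [eq_bot_iff]
  intro y hy
  rw [Submodule.mem_bot]
  exact T.right y fun x => hy x Submodule.mem_top

theorem localPairing_perp_anti {q : Nat.Primes} {M : Rep.{0} (ZMod p) Γ} (T : LocalPairing q M)
    {L L' : Submodule (ZMod p) (H1l q M)} (h : L ≤ L') : T.perp L' ≤ T.perp L :=
  fun _ hy x hx => hy x (h hx)

/-- **(C0) The weak Greenberg–Wiles package from the bricks.** -/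
theorem gwPackageW_of_bricks (hp2 : p ≠ 2)
    (perp₀ : ∀ (q : Nat.Primes) (M : Rep.{0} (ZMod p) Γ),
      Submodule (ZMod p) (H1l q M) → Submodule (ZMod p) (H1l q (dual M)))
    (hC1 : ∀ (S : Finset Nat.Primes) (M : Rep.{0} (ZMod p) Γ), pPrime p ∈ S → IsGood S M →
      MiddleExact perp₀ S M)
    (hC2 : ∀ (S : Finset Nat.Primes) (M : Rep.{0} (ZMod p) Γ), pPrime p ∈ S → IsGood S M →
      TailEq S M)
    (hC3 : TateStatement p)
    (hC4 : ∀ (q : Nat.Primes) (S : Finset Nat.Primes) (M : Rep.{0} (ZMod p) Γ), IsGood S M →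
      LocalEuler q M)
    (hC5 : ∀ (S : Finset Nat.Primes) (M : Rep.{0} (ZMod p) Γ), pPrime p ∈ S → IsGood S M →
      ShaCount S M) :
    Nonempty (GWPackageW p) := by
  classical
  -- the intrinsic `perp`, made antitone for ALL modules
  let perp : ∀ (q : Nat.Primes) (M : Rep.{0} (ZMod p) Γ),
      Submodule (ZMod p) (H1l q M) → Submodule (ZMod p) (H1l q (dual M)) :=
    fun q M L => if ∃ S : Finset Nat.Primes, IsGood S M then perp₀ q M L else ⊥
  have hperp_good : ∀ {S : Finset Nat.Primes} {M : Rep.{0} (ZMod p) Γ}, IsGood S M →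
      ∀ (q : Nat.Primes) (L : Submodule (ZMod p) (H1l q M)), perp q M L = perp₀ q M L :=
    fun {S} {M} hM q L => if_pos ⟨S, hM⟩
  have hC1' : ∀ (S : Finset Nat.Primes) (M : Rep.{0} (ZMod p) Γ), pPrime p ∈ S → IsGood S M →
      MiddleExact perp S M := by
    intro S M hpS hM
    obtain ⟨T, hT, hmid⟩ := hC1 S M hpS hM
    exact ⟨T, fun q L => (hT q L).trans (hperp_good hM q.1 L).symm, hmid⟩
  -- a local pairing at every `(q, M)`, `M` good
  have hT : ∀ (q : Nat.Primes) (S : Finset Nat.Primes) (M : Rep.{0} (ZMod p) Γ), IsGood S M →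
      ∃ T : LocalPairing q M, ∀ L, T.perp L = perp q M L := by
    intro q S M hM
    have hsub : S ⊆ insert q (insert (pPrime p) S) :=
      (Finset.subset_insert _ _).trans (Finset.subset_insert _ _)
    have hp' : pPrime p ∈ insert q (insert (pPrime p) S) :=
      Finset.mem_insert_of_mem (Finset.mem_insert_self _ _)
    have hq' : q ∈ insert q (insert (pPrime p) S) := Finset.mem_insert_self _ _
    obtain ⟨T, hT, -⟩ := hC1' _ M hp' (isGood_mono hsub hM)
    exact ⟨T ⟨q, hq'⟩, fun L => hT ⟨q, hq'⟩ L⟩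
  -- (FIN), (SYM), (TAIL)
  have hFIN : ∀ (S : Finset Nat.Primes) (M : Rep.{0} (ZMod p) Γ), pPrime p ∈ S → IsGood S M →
      GlobalFin S M := by
    intro S M hpS hM
    haveI := hM.fin
    exact globalFin_of_bricks S M (fun q => hC4 q.1 S M hM) (hC5 S M hpS hM)
      (hC5 S (dual M) hpS (isGood_dual hpS hM))
  have hTAIL : ∀ (S : Finset Nat.Primes) (M : Rep.{0} (ZMod p) Γ), pPrime p ∈ S → IsGood S M →
      GlobalTail S M := fun S M hpS hM =>
    globalTail_of_bricks S M (hFIN S M hpS hM).2 (fun q => hC4 q.1 S M hM) (hC2 S M hpS hM)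
  have hSYM : ∀ (S : Finset Nat.Primes) (M : Rep.{0} (ZMod p) Γ), pPrime p ∈ S → IsGood S M →
      GlobalSym S M := by
    intro S M hpS hM
    haveI := hM.fin
    have hM' := isGood_dual hpS hM
    exact globalSym_of_bricks S M hpS (hC1' S M hpS hM) (fun q => hC4 q.1 S M hM)
      (fun q => hC4 q.1 S (dual M) hM') (hC5 S M hpS hM) (hC5 S (dual M) hpS hM')
      (hC2 S M hpS hM) (hC2 S (dual M) hpS hM') (hFIN S M hpS hM) (hFIN S (dual M) hpS hM')
  have hTate := hC3 hp2 hFIN hSYM hTAIL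
  refine ⟨{ perp := perp, perp_top := ?_, perp_anti := ?_, finite_H1l := ?_, finrank_H1l := ?_,
            finrank_H1l_p := ?_, finite_H1g := ?_, main := ?_ }⟩
  · intro q M S hM
    obtain ⟨T, hT'⟩ := hT q S M hM
    rw [← hT' ⊤]
    exact localPairing_perp_top T
  · intro q M L L' hLL'
    by_cases h : ∃ S : Finset Nat.Primes, IsGood S M
    · obtain ⟨S, hM⟩ := h
      obtain ⟨T, hT'⟩ := hT q S M hM
      rw [← hT' L, ← hT' L']
      exact localPairing_perp_anti T hLL'
    · show (if ∃ S : Finset Nat.Primes, IsGood S M then perp₀ q M L' else ⊥) ≤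
        (if ∃ S : Finset Nat.Primes, IsGood S M then perp₀ q M L else ⊥)
      rw [if_neg h, if_neg h]
  · exact fun q M S hM => (hC4 q S M hM).1
  · intro q M S hM hq
    obtain ⟨-, -, h2, h1⟩ := hC4 q S M hM
    rw [h1, h2, if_neg hq, add_zero]
  · intro M S hM
    obtain ⟨-, -, h2, h1⟩ := hC4 (pPrime p) S M hM
    rw [h1, h2, if_pos (pPrime_coe (p := p))]
  · exact fun S M hpS hM => (hFIN S M hpS hM).1
  · intro S M hpS hM
    obtain ⟨S₀, hS₀⟩ := hTate S M hpS hM
    refine ⟨S₀, fun S' hSS' hS₀S' L => ?_⟩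
    have hpS' : pPrime p ∈ S' := hSS' hpS
    have hM' : IsGood S' M := isGood_mono hSS' hM
    have hMd : IsGood S' (dual M) := isGood_dual hpS' hM'
    exact Ineq.gwIneq_of_bricks S' M hpS' (hC1' S' M hpS' hM') (hFIN S' M hpS' hM').1
      (hFIN S' (dual M) hpS' hMd).1 (hFIN S' M hpS' hM').2 (fun q => hC4 q.1 S' M hM')
      (hC5 S' M hpS' hM') (hC2 S' M hpS' hM').tailBound (hS₀ S' hSS' hS₀S') L

/-- The same, with (C1) in the minimal form `MiddleExactLite`. -/
theorem gwPackageW_of_bricks_lite (hp2 : p ≠ 2)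
    (perp₀ : ∀ (q : Nat.Primes) (M : Rep.{0} (ZMod p) Γ),
      Submodule (ZMod p) (H1l q M) → Submodule (ZMod p) (H1l q (dual M)))
    (hC1 : ∀ (S : Finset Nat.Primes) (M : Rep.{0} (ZMod p) Γ), pPrime p ∈ S → IsGood S M →
      Lite.MiddleExactLite perp₀ S M)
    (hC2 : ∀ (S : Finset Nat.Primes) (M : Rep.{0} (ZMod p) Γ), pPrime p ∈ S → IsGood S M →
      TailEq S M)
    (hC3 : TateStatement p)
    (hC4 : ∀ (q : Nat.Primes) (S : Finset Nat.Primes) (M : Rep.{0} (ZMod p) Γ), IsGood S M →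
      LocalEuler q M)
    (hC5 : ∀ (S : Finset Nat.Primes) (M : Rep.{0} (ZMod p) Γ), pPrime p ∈ S → IsGood S M →
      ShaCount S M) :
    Nonempty (GWPackageW p) :=
  gwPackageW_of_bricks hp2 perp₀
    (fun S M hpS hM => Lite.middleExact_of_lite S M (fun q => (hC4 q.1 S M hM).1)
      (hC1 S M hpS hM)) hC2 hC3 hC4 hC5

end Fermat.Agent.TW.GWAsm22.Package
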