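/-
Programme TW (S56), sub-programme C (Greenberg–Wiles), brick C0 (helper22), file 8:
`GWStatementW p` from C1 – C4, with (C5) = `GWSha97.shaCount` (the S55 count) plugged in.
-/
import Mathlib
import Fermat.Agent.TW.GWSha97
import Fermat.Agent.TW.GWAsm22.Package

set_option autoImplicit false

open ExtCitation
open Fermat.Agent.PT.PRO Fermat.Agent.PT.BR Fermat.Agent.PT.BR.LevelBridge13

namespace Fermat.Agent.TW.GWAsm22.PackageSha

open Fermat.Agent.TW.GWIface97 Fermat.Agent.TW.GWIface2_97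

local notation "Γ" => (AlgebraicClosure ℚ ≃ₐ[ℚ] AlgebraicClosure ℚ)

variable {p : ℕ} [Fact p.Prime]

/-- **(C) `GWStatementW p` from C1 (full form), C2, C3, C4.**  Every input may assume `p ≠ 2`. -/
theorem gwStatementW_of_bricks
    (perp₀ : ∀ (q : Nat.Primes) (M : Rep.{0} (ZMod p) Γ),
      Submodule (ZMod p) (H1l q M) → Submodule (ZMod p) (H1l q (dual M)))
    (hC1 : p ≠ 2 → ∀ (S : Finset Nat.Primes) (M : Rep.{0} (ZMod p) Γ), pPrime p ∈ S →
      IsGood S M → MiddleExact perp₀ S M)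
    (hC2 : p ≠ 2 → ∀ (S : Finset Nat.Primes) (M : Rep.{0} (ZMod p) Γ), pPrime p ∈ S →
      IsGood S M → TailEq S M)
    (hC3 : TateStatement p)
    (hC4 : p ≠ 2 → ∀ (q : Nat.Primes) (S : Finset Nat.Primes) (M : Rep.{0} (ZMod p) Γ),
      IsGood S M → LocalEuler q M) :
    GWStatementW p := fun hp2 =>
  Package.gwPackageW_of_bricks hp2 perp₀ (hC1 hp2) (hC2 hp2) hC3 (hC4 hp2)
    (fun S M hpS hM => GWSha97.shaCount hp2 S hpS M hM)

/-- **(C) `GWStatementW p` from C1 (minimal form `MiddleExactLite`), C2, C3, C4.** -/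
theorem gwStatementW_of_bricks_lite
    (perp₀ : ∀ (q : Nat.Primes) (M : Rep.{0} (ZMod p) Γ),
      Submodule (ZMod p) (H1l q M) → Submodule (ZMod p) (H1l q (dual M)))
    (hC1 : p ≠ 2 → ∀ (S : Finset Nat.Primes) (M : Rep.{0} (ZMod p) Γ), pPrime p ∈ S →
      IsGood S M → Lite.MiddleExactLite perp₀ S M)
    (hC2 : p ≠ 2 → ∀ (S : Finset Nat.Primes) (M : Rep.{0} (ZMod p) Γ), pPrime p ∈ S →
      IsGood S M → TailEq S M)
    (hC3 : TateStatement p)
    (hC4 : p ≠ 2 → ∀ (q : Nat.Primes) (S : Finset Nat.Primes) (M : Rep.{0} (ZMod p) Γ),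
      IsGood S M → LocalEuler q M) :
    GWStatementW p := fun hp2 =>
  Package.gwPackageW_of_bricks_lite hp2 perp₀ (hC1 hp2) (hC2 hp2) hC3 (hC4 hp2)
    (fun S M hpS hM => GWSha97.shaCount hp2 S hpS M hM)

end Fermat.Agent.TW.GWAsm22.PackageSha
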